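/-
S36lib / Desc / InertiaField  (helper2)

Hilbert theory, the inertia field: Mathlib's `NumberTheory/RamificationInertia/HilbertTheory`
proves that the prime of the DECOMPOSITION field below `P` is unramified with residue degree one.
Here is the companion statement for the INERTIA field `E` of `P` in `L/K`:
the prime `𝓟E` of `E` below `P` is unramified over `K`.
-/
import Mathlib

set_option autoImplicit false

noncomputable section

namespace Fermat.Agent.S36lib.Desc

open MulAction Pointwise Ideal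

section InertiaField

variable (A K L : Type*) {B : Type*} [Field K] [Field L] [Algebra K L] [CommRing A] [CommRing B]
  [Algebra A B] {p : Ideal A} (P : Ideal B) [P.LiesOver p]
variable [Algebra A K] [IsFractionRing A K] [Algebra A L] [IsScalarTower A K L] [Algebra B L]
  [IsScalarTower A B L] [IsFractionRing B L] [MulSemiringAction (L ≃ₐ[K] L) B]
  [SMulDistribClass (L ≃ₐ[K] L) B L]
variable (E 𝓞E : Type*) [Field E] [Algebra E L] [IsInertiaField K L P E] [CommRing 𝓞E]
  [Algebra 𝓞E E] [IsFractionRing 𝓞E E] [Algebra 𝓞E B] [Algebra 𝓞E L] [IsScalarTower 𝓞E E L]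
  [IsScalarTower 𝓞E B L] (𝓟E : Ideal 𝓞E) [hE : P.LiesOver 𝓟E]
variable [IsGalois K L] [IsDedekindDomain A] [IsDedekindDomain B] [Module.Finite A B]
  [Module.IsTorsionFree A B] [Algebra A 𝓞E] [Module.Finite A 𝓞E] [IsScalarTower A 𝓞E B]
  [IsDedekindDomain 𝓞E] [𝓟E.LiesOver p]
variable [FiniteDimensional K L] [Ring.HasFiniteQuotients A] [𝓟E.IsMaximal] [P.IsMaximal]

include K L E P in
/-- the prime of the inertia field below `P` is unramified over the base. -/
theorem inertiaField_ramificationIdx_eq_one [Finite (𝓞E ⧸ 𝓟E)] (hp : p ≠ ⊥) :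
    𝓟E.ramificationIdx A = 1 := by
  have inst₁ : Module.Finite 𝓞E B := Module.Finite.right A 𝓞E B
  have inst₂ : Module.IsTorsionFree 𝓞E B := by
    rw [Module.isTorsionFree_iff_faithfulSMul]
    apply Algebra.IsAlgebraic.faithfulSMul_tower_top A
  have inst₃ : Module.IsTorsionFree A 𝓞E := Module.IsTorsionFree.of_faithfulSMul _ _ B
  have inst₄ : IsGaloisGroup (L ≃ₐ[K] L) A B := .of_isFractionRing _ _ _ K L
  have inst₅ : IsGaloisGroup (inertia (L ≃ₐ[K] L) P) 𝓞E B := .of_isFractionRing _ _ _ E L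
  have h𝓟 : 𝓟E ≠ ⊥ := Ideal.ne_bot_of_liesOver_of_ne_bot hp 𝓟E
  have : p.IsMaximal := over_def P p ▸ Ideal.IsMaximal.under A P
  have : Finite (A ⧸ p) := Ring.HasFiniteQuotients.finiteQuotient hp
  have h1 := card_inertia_eq_ramificationIdxIn (G := (L ≃ₐ[K] L)) p P
  have h2 := card_inertia_eq_ramificationIdxIn (G := inertia (L ≃ₐ[K] L) P) 𝓟E P
  have h3 : Ideal.inertia (inertia (L ≃ₐ[K] L) P) P = ⊤ := by
    rw [eq_top_iff]
    rintro ⟨σ, hσ⟩ -
    intro x
    exact hσ x
  rw [h3, Subgroup.card_top] at h2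
  have h4 : 𝓟E.ramificationIdxIn B = p.ramificationIdxIn B := by rw [← h2, ← h1]
  rw [ramificationIdxIn_eq_ramificationIdx p P (L ≃ₐ[K] L),
    ramificationIdxIn_eq_ramificationIdx 𝓟E P (inertia (L ≃ₐ[K] L) P)] at h4
  have h5 := ramificationIdx_tower (R := A) 𝓟E P
  rw [← h4] at h5
  have hpos : 0 < P.ramificationIdx 𝓞E := ramificationIdx_pos P 𝓞E
  exact (Nat.mul_eq_right hpos.ne').mp h5.symm

end InertiaField

end Fermat.Agent.S36lib.Desc
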