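/-
S36lib / Desc / Base  (helper2)

**The fixed field of the inertia group is unramified.**  For a valuation subring `A` of `ℚ̄` over a
prime number `q` and `c ∈ ℚ̄ˣ` fixed by `A.inertiaSubgroupIn ℚ`, the valuation of `c` is an
integral power of the valuation of `q`:  `∃ m : ℤ, A.valuation (c * q ^ m) = 1`.

Proof: `M` := normal closure of `ℚ(c)`, `Q := 𝔓_A ∩ 𝓞 M`; every element of the inertia group
`I(Q) ≤ Gal(M/ℚ)` lifts to `A.inertiaSubgroupIn ℚ` (`S13lib.exists_inertia_lift_at`), hence `c` lies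
in the inertia field `E = M^{I(Q)}`; the prime of `E` below `Q` is unramified
(`Desc.inertiaField_ramificationIdx_eq_one`), i.e. `q` is a uniformizer there.
-/
import Mathlib
import Fermat.Agent.S13lib.UnramTopOne
import Fermat.Agent.S36lib.Desc.InertiaField

set_option autoImplicit false
set_option linter.style.haveILetI false
set_option linter.unusedSectionVars false

noncomputable section

namespace Fermat.Agent.S36lib.Desc

open NumberField IsDedekindDomain Fermat.Agent.S13lib
open scoped Pointwise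

section

variable (M : IntermediateField ℚ Qbar) [FiniteDimensional ℚ M] [IsGalois ℚ M]
variable (A : ValuationSubring Qbar)

/-- the prime of `𝓞 M` below `A` -/
abbrev primeBelow : Ideal (𝓞 M) := (primeOfVal A).under (𝓞 M)

theorem mem_primeBelow {x : 𝓞 M} : x ∈ primeBelow M A ↔ A.valuation ((x : M) : Qbar) < 1 := by
  rw [primeBelow, Ideal.under_def, Ideal.mem_comap, mem_primeOfVal]
  rfl

/-- an element of `M` fixed by the inertia group of `A` is fixed by the inertia group of
`primeBelow M A` -/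
theorem fixed_of_fixed {q : ℕ} (hq : q.Prime) (hA : A.LiesOverPrime q) {c : M}
    (hfix : ∀ τ ∈ A.inertiaSubgroupIn ℚ, τ (c : Qbar) = (c : Qbar))
    (σ : M ≃ₐ[ℚ] M) (hσ : σ ∈ Ideal.inertia (M ≃ₐ[ℚ] M) (primeBelow M A)) : σ c = c := by
  obtain ⟨τ, hτ, hτσ⟩ := exists_inertia_lift_at M A hq.ne_zero hA σ hσ
  apply Subtype.ext
  have h1 := AlgEquiv.restrictNormal_commutes τ M c
  rw [← hτσ]
  exact h1.trans (hfix τ hτ)

end

section Main

variable (M : IntermediateField ℚ Qbar) [FiniteDimensional ℚ M] [IsGalois ℚ M]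
variable (A : ValuationSubring Qbar) {q : ℕ}

/-- a finite subextension of `ℚ̄` is a number field -/
local instance numberField_of_finiteDimensional : NumberField M := ⟨⟩

theorem natCast_mem_primeBelow (hA : A.LiesOverPrime q) : (q : 𝓞 M) ∈ primeBelow M A := by
  rw [mem_primeBelow]
  have h : (((q : 𝓞 M) : M) : Qbar) = (q : Qbar) := by simp
  rw [h]
  exact (A.mem_nonunits_iff).mp hA

/-- the inertia field of `primeBelow M A` in `M / ℚ` -/
abbrev inertiaFld : IntermediateField ℚ M :=
  FixedPoints.intermediateField (Ideal.inertia (M ≃ₐ[ℚ] M) (primeBelow M A))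

/-- the prime of the inertia field below `A` -/
abbrev primeE : Ideal (𝓞 (inertiaFld M A)) := (primeBelow M A).under (𝓞 (inertiaFld M A))

theorem primeE_unramified (hq : q.Prime) (hA : A.LiesOverPrime q) :
    (primeE M A).ramificationIdx ℤ = 1 := by
  have hQ0 : primeBelow M A ≠ ⊥ := by
    intro h
    have h1 := natCast_mem_primeBelow M A hA
    rw [h, Ideal.mem_bot] at h1
    exact hq.ne_zero (by exact_mod_cast h1)
  haveI : (primeBelow M A).IsMaximal := Ring.DimensionLEOne.maximalOfPrime hQ0 inferInstance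
  have hE0 : primeE M A ≠ ⊥ := by
    intro h
    have h1 : (q : 𝓞 (inertiaFld M A)) ∈ primeE M A := by
      rw [primeE, Ideal.under_def, Ideal.mem_comap, map_natCast]
      exact natCast_mem_primeBelow M A hA
    rw [h, Ideal.mem_bot] at h1
    exact hq.ne_zero (by exact_mod_cast h1)
  haveI : (primeE M A).IsMaximal := Ring.DimensionLEOne.maximalOfPrime hE0 inferInstance
  haveI : (primeBelow M A).LiesOver (primeE M A) := ⟨rfl⟩
  haveI : Finite (𝓞 (inertiaFld M A) ⧸ primeE M A) := Ideal.finiteQuotientOfFreeOfNeBot _ hE0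
  have hp0 : (primeBelow M A).under ℤ ≠ ⊥ := by
    intro h
    have h1 : (q : ℤ) ∈ (primeBelow M A).under ℤ := by
      rw [Ideal.under_def, Ideal.mem_comap, map_natCast]
      exact natCast_mem_primeBelow M A hA
    rw [h, Ideal.mem_bot] at h1
    exact hq.ne_zero (by exact_mod_cast h1)
  exact inertiaField_ramificationIdx_eq_one ℤ ℚ M (p := (primeBelow M A).under ℤ) (primeBelow M A)
    (inertiaFld M A) (𝓞 (inertiaFld M A)) (primeE M A) hp0

/-- integers of the inertia field are `A`-integral -/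
theorem val_int_le_one (a : 𝓞 (inertiaFld M A)) :
    A.valuation (((a : inertiaFld M A) : M) : Qbar) ≤ 1 := by
  rw [A.valuation_le_one_iff]
  have hint : IsIntegral ℤ (((a : inertiaFld M A) : M) : Qbar) := by
    have h1 : IsIntegral ℤ (a : inertiaFld M A) := RingOfIntegers.isIntegral_coe a
    have h2 : IsIntegral ℤ ((a : inertiaFld M A) : M) :=
      h1.map (IsScalarTower.toAlgHom ℤ (inertiaFld M A) M)
    exact h2.map (IsScalarTower.toAlgHom ℤ M Qbar)
  exact int_mem_valuationSubring A ⟨_, hint⟩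

theorem mem_primeE {a : 𝓞 (inertiaFld M A)} :
    a ∈ primeE M A ↔ A.valuation (((a : inertiaFld M A) : M) : Qbar) < 1 := by
  rw [primeE, Ideal.under_def, Ideal.mem_comap, mem_primeBelow]
  rfl

theorem val_int_eq_one {a : 𝓞 (inertiaFld M A)} (ha : a ∉ primeE M A) :
    A.valuation (((a : inertiaFld M A) : M) : Qbar) = 1 := by
  rw [mem_primeE, not_lt] at ha
  exact le_antisymm (val_int_le_one M A a) ha

/-- the height one prime of the inertia field below `A` -/
def specE (hq : q.Prime) (hA : A.LiesOverPrime q) : HeightOneSpectrum (𝓞 (inertiaFld M A)) where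
  asIdeal := primeE M A
  isPrime := inferInstance
  ne_bot := by
    intro h
    have h1 : (q : 𝓞 (inertiaFld M A)) ∈ primeE M A := by
      rw [primeE, Ideal.under_def, Ideal.mem_comap, map_natCast]
      exact natCast_mem_primeBelow M A hA
    rw [h, Ideal.mem_bot] at h1
    exact hq.ne_zero (by exact_mod_cast h1)

theorem val_le_one_of_valuation_le_one (hq : q.Prime) (hA : A.LiesOverPrime q)
    (y : inertiaFld M A) (hy : (specE M A hq hA).valuation (inertiaFld M A) y ≤ 1) :
    A.valuation ((y : M) : Qbar) ≤ 1 := by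
  obtain ⟨n, d, hnd⟩ := (specE M A hq hA).exists_primeCompl_mul_eq_of_integer y hy
  have hd : (d : 𝓞 (inertiaFld M A)) ∉ primeE M A := d.2
  have h1 : ((y : M) : Qbar) * ((((d : 𝓞 (inertiaFld M A)) : inertiaFld M A) : M) : Qbar) =
      (((n : inertiaFld M A) : M) : Qbar) := by
    have := congrArg (fun z : inertiaFld M A => ((z : M) : Qbar)) hnd
    simpa using this
  have h2 := congrArg A.valuation h1
  rw [map_mul, val_int_eq_one M A hd, mul_one] at h2
  rw [h2]
  exact val_int_le_one M A n

theorem valuation_natCast (hq : q.Prime) (hA : A.LiesOverPrime q) :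
    (specE M A hq hA).valuation (inertiaFld M A) ((q : ℕ) : inertiaFld M A) =
      WithZero.exp (-1 : ℤ) := by
  have hq0 : ((q : ℕ) : 𝓞 (inertiaFld M A)) ≠ 0 := by
    exact_mod_cast hq.ne_zero
  have hcast : ((q : ℕ) : inertiaFld M A) =
      algebraMap (𝓞 (inertiaFld M A)) (inertiaFld M A) ((q : ℕ) : 𝓞 (inertiaFld M A)) := by
    simp
  rw [hcast, HeightOneSpectrum.valuation_of_algebraMap,
    HeightOneSpectrum.intValuation_eq_exp_neg_multiplicity _ hq0]
  have hmem : (q : 𝓞 (inertiaFld M A)) ∈ primeE M A := by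
    rw [primeE, Ideal.under_def, Ideal.mem_comap, map_natCast]
    exact natCast_mem_primeBelow M A hA
  have hspan : Ideal.span {(q : ℤ)} = (primeE M A).under ℤ := by
    have hmax : (Ideal.span {(q : ℤ)}).IsMaximal :=
      PrincipalIdealRing.isMaximal_of_irreducible
        (Nat.prime_iff_prime_int.mp hq).irreducible
    refine hmax.eq_of_le (Ideal.IsPrime.ne_top inferInstance) ?_
    rw [Ideal.span_singleton_le_iff_mem, Ideal.under_def, Ideal.mem_comap]
    simpa using hmem
  haveI : (primeE M A).LiesOver (Ideal.span {(q : ℤ)}) := ⟨hspan⟩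
  have hmap : (Ideal.span {(q : ℤ)}).map (algebraMap ℤ (𝓞 (inertiaFld M A))) =
      Ideal.span {((q : ℕ) : 𝓞 (inertiaFld M A))} := by
    rw [Ideal.map_span, Set.image_singleton]
    simp
  have hne : (Ideal.span {(q : ℤ)}).map (algebraMap ℤ (𝓞 (inertiaFld M A))) ≠ ⊥ := by
    rw [hmap, Ne, Ideal.span_singleton_eq_bot]
    exact hq0
  have h1 := Ideal.IsDedekindDomain.ramificationIdx_eq_multiplicity (Ideal.span {(q : ℤ)})
    (primeE M A) hne
  rw [primeE_unramified M A hq hA, hmap] at h1
  show WithZero.exp (-(multiplicity (primeE M A) (Ideal.span {((q : ℕ) : 𝓞 (inertiaFld M A))}) : ℤ))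
    = _
  rw [← h1]
  rfl

theorem exists_zpow_of_mem_inertiaFld (hq : q.Prime) (hA : A.LiesOverPrime q)
    (c : inertiaFld M A) (hc : c ≠ 0) :
    ∃ m : ℤ, A.valuation (((c : M) : Qbar) * (q : Qbar) ^ m) = 1 := by
  set v := specE M A hq hA with hv
  set γ := v.valuation (inertiaFld M A) c with hγ
  have hγ0 : γ ≠ 0 := (Valuation.ne_zero_iff _).mpr hc
  set m : ℤ := WithZero.log γ with hm
  have hq0 : ((q : ℕ) : inertiaFld M A) ≠ 0 := by exact_mod_cast hq.ne_zero
  set x : inertiaFld M A := c * ((q : ℕ) : inertiaFld M A) ^ m with hx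
  have hx0 : x ≠ 0 := mul_ne_zero hc (zpow_ne_zero _ hq0)
  have hvx : v.valuation (inertiaFld M A) x = 1 := by
    rw [hx, map_mul, map_zpow₀, valuation_natCast M A hq hA, ← hγ, ← WithZero.exp_zsmul,
      ← WithZero.exp_log hγ0, ← WithZero.exp_add, ← hm]
    simp
  have hvx' : v.valuation (inertiaFld M A) x⁻¹ = 1 := by rw [map_inv₀, hvx, inv_one]
  have h1 := val_le_one_of_valuation_le_one M A hq hA x hvx.le
  have h2 := val_le_one_of_valuation_le_one M A hq hA x⁻¹ hvx'.le
  have hcoe : ((x : M) : Qbar) = ((c : M) : Qbar) * (q : Qbar) ^ m := by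
    rw [hx]
    push_cast
    rfl
  have hcoe' : (((x⁻¹ : inertiaFld M A) : M) : Qbar) = (((x : M) : Qbar))⁻¹ := by
    push_cast
    rfl
  refine ⟨m, ?_⟩
  rw [← hcoe]
  rw [hcoe', map_inv₀] at h2
  have hx0' : A.valuation ((x : M) : Qbar) ≠ 0 := by
    rw [Valuation.ne_zero_iff]
    intro h
    apply hx0
    have : (x : M) = 0 := by exact_mod_cast h
    exact_mod_cast this
  refine le_antisymm h1 ?_
  exact (inv_le_one₀ (zero_lt_iff.mpr hx0')).mp h2

end Main

section Final

variable (A : ValuationSubring Qbar) {q : ℕ}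

/-- **The fixed field of inertia is unramified**: an element of `ℚ̄ˣ` fixed by the inertia group of
`A ∣ q` has the valuation of an integral power of `q`. -/
theorem exists_zpow_mul_unit (hq : q.Prime) (hA : A.LiesOverPrime q) {c : Qbar} (hc : c ≠ 0)
    (hfix : ∀ τ ∈ A.inertiaSubgroupIn ℚ, τ c = c) :
    ∃ m : ℤ, A.valuation (c * (q : Qbar) ^ m) = 1 := by
  -- a finite Galois extension containing `c`
  let K₀ : IntermediateField ℚ Qbar := IntermediateField.adjoin ℚ {c}
  haveI : FiniteDimensional ℚ K₀ :=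
    IntermediateField.adjoin.finiteDimensional (Algebra.IsIntegral.isIntegral c)
  let M : IntermediateField ℚ Qbar := IntermediateField.normalClosure ℚ K₀ Qbar
  haveI : FiniteDimensional ℚ M := normalClosure.is_finiteDimensional ℚ K₀ Qbar
  haveI : Normal ℚ M := normalClosure.normal ℚ K₀ Qbar
  haveI : IsGalois ℚ M := ⟨⟩
  have hcK₀ : c ∈ K₀ := IntermediateField.mem_adjoin_simple_self ℚ c
  have hcM : c ∈ M := (K₀.val).fieldRange_le_normalClosure ⟨⟨c, hcK₀⟩, rfl⟩
  -- `c` lies in the inertia field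
  have hcE : (⟨c, hcM⟩ : M) ∈ inertiaFld M A := by
    rintro ⟨σ, hσ⟩
    exact fixed_of_fixed M A hq hA (c := ⟨c, hcM⟩) hfix σ hσ
  have hne : (⟨⟨c, hcM⟩, hcE⟩ : inertiaFld M A) ≠ 0 := by
    intro h
    apply hc
    have := congrArg (fun z : inertiaFld M A => ((z : M) : Qbar)) h
    simpa using this
  exact exists_zpow_of_mem_inertiaFld M A hq hA ⟨⟨c, hcM⟩, hcE⟩ hne

end Final

end Fermat.Agent.S36lib.Desc
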