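/-
S36lib / Desc / Kfix  (helper2)

**The packaged base of the descent** (brick B2 / D1): for a valuation subring `A` of `ℚ̄` over a
prime `q`,

* `Kfix A : IntermediateField ℚ ℚ̄` — the fixed field of the inertia group `A.inertiaSubgroupIn ℚ`;
* `Wfix A : ValuationSubring (Kfix A)` — `A ∩ Kfix A`;
* `Wfix A` is a discrete valuation ring with uniformizer `q` (`Desc.exists_zpow_mul_unit`), also in
  the elementary form `c = q ^ m * unit`;
* `resEquiv : ResidueField (Wfix A) ≃+* ResidueField A` (inertia-fixed lifts, `Kum.Teich`).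
-/
import Mathlib
import Fermat.Agent.S36lib.Desc.Base
import Fermat.Agent.LSb.Kum.Teich

set_option autoImplicit false
set_option linter.unusedSectionVars false
set_option linter.unusedVariables false
set_option linter.style.haveILetI false

noncomputable section

namespace Fermat.Agent.S36lib.Desc

open Fermat.Agent.S13lib IsLocalRing

variable (A : ValuationSubring Qbar)

/-- the fixed field of the inertia group of `A` -/
abbrev Kfix : IntermediateField ℚ Qbar := IntermediateField.fixedField (A.inertiaSubgroupIn ℚ)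

theorem mem_Kfix {c : Qbar} : c ∈ Kfix A ↔ ∀ τ ∈ A.inertiaSubgroupIn ℚ, τ c = c := by
  rw [Kfix, IntermediateField.mem_fixedField_iff]

/-- the valuation ring `A ∩ Kfix A` of `Kfix A` -/
def Wfix : ValuationSubring (Kfix A) := A.comap (algebraMap (Kfix A) Qbar)

theorem mem_Wfix {c : Kfix A} : c ∈ Wfix A ↔ (c : Qbar) ∈ A := Iff.rfl


variable {A} {q : ℕ}

theorem coe_natCast_Kfix (n : ℕ) : (((n : ℕ) : Kfix A) : Qbar) = (n : Qbar) := by
  simp

theorem natCast_mem_A (n : ℕ) : (n : Qbar) ∈ A := natCast_mem A n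

/-- `q` as an element of `Wfix A` -/
def qW (A : ValuationSubring Qbar) (q : ℕ) : Wfix A :=
  ⟨(q : Kfix A), by rw [mem_Wfix, coe_natCast_Kfix]; exact natCast_mem_A q⟩

@[simp] theorem coe_qW : ((qW A q : Wfix A) : Kfix A) = (q : Kfix A) := rfl

theorem valuation_q_lt_one (hA : A.LiesOverPrime q) : A.valuation (q : Qbar) < 1 :=
  (A.mem_nonunits_iff).mp hA

theorem valuation_q_ne_zero (hq : q.Prime) : A.valuation (q : Qbar) ≠ 0 := by
  rw [Valuation.ne_zero_iff]
  exact_mod_cast hq.ne_zero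

/-- a unit of `Wfix A` from an element of valuation one -/
def unitOfVal (x : Kfix A) (hx : A.valuation (x : Qbar) = 1) : (Wfix A)ˣ where
  val := ⟨x, by rw [mem_Wfix, ← A.valuation_le_one_iff, hx]⟩
  inv := ⟨x⁻¹, by
    rw [mem_Wfix, ← A.valuation_le_one_iff]
    have : ((x⁻¹ : Kfix A) : Qbar) = ((x : Qbar))⁻¹ := by simp
    rw [this, map_inv₀, hx, inv_one]⟩
  val_inv := by
    have hx0 : x ≠ 0 := by
      rintro rfl
      simp at hx
    apply Subtype.ext
    show x * x⁻¹ = 1
    exact mul_inv_cancel₀ hx0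
  inv_val := by
    have hx0 : x ≠ 0 := by
      rintro rfl
      simp at hx
    apply Subtype.ext
    show x⁻¹ * x = 1
    exact inv_mul_cancel₀ hx0

@[simp] theorem coe_unitOfVal (x : Kfix A) (hx : A.valuation (x : Qbar) = 1) :
    (((unitOfVal x hx : (Wfix A)ˣ) : Wfix A) : Kfix A) = x := rfl

theorem valuation_unit (u : (Wfix A)ˣ) : A.valuation (((u : Wfix A) : Kfix A) : Qbar) = 1 := by
  have h1 : A.valuation (((u : Wfix A) : Kfix A) : Qbar) ≤ 1 :=
    (A.valuation_le_one_iff _).mpr (u : Wfix A).2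
  have h2 : A.valuation ((((u⁻¹ : (Wfix A)ˣ) : Wfix A) : Kfix A) : Qbar) ≤ 1 :=
    (A.valuation_le_one_iff _).mpr ((u⁻¹ : (Wfix A)ˣ) : Wfix A).2
  have h3 : (((u : Wfix A) : Kfix A) : Qbar) * ((((u⁻¹ : (Wfix A)ˣ) : Wfix A) : Kfix A) : Qbar)
      = 1 := by
    have h := congrArg (fun w : Wfix A => ((w : Kfix A) : Qbar)) u.mul_inv
    exact h
  have h4 := congrArg A.valuation h3
  rw [map_mul, map_one] at h4
  refine le_antisymm h1 ?_
  by_contra hlt
  rw [not_le] at hlt
  have : A.valuation (((u : Wfix A) : Kfix A) : Qbar) *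
      A.valuation ((((u⁻¹ : (Wfix A)ˣ) : Wfix A) : Kfix A) : Qbar) < 1 := by
    calc _ ≤ A.valuation (((u : Wfix A) : Kfix A) : Qbar) * 1 := by gcongr
      _ < 1 := by rwa [mul_one]
  rw [h4] at this
  exact lt_irrefl _ this

/-- **elementary DVR form**: every nonzero element of `Kfix A` is `q ^ m · unit` -/
theorem exists_zpow_mul_unit_Kfix (hq : q.Prime) (hA : A.LiesOverPrime q) {c : Kfix A}
    (hc : c ≠ 0) : ∃ (m : ℤ) (u : (Wfix A)ˣ), c = (q : Kfix A) ^ m * ((u : Wfix A) : Kfix A) := by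
  have hc' : (c : Qbar) ≠ 0 := by
    intro h
    exact hc (by exact_mod_cast h)
  obtain ⟨m, hm⟩ := exists_zpow_mul_unit A hq hA hc' ((mem_Kfix A).mp c.2)
  have hq0 : ((q : ℕ) : Kfix A) ≠ 0 := by exact_mod_cast hq.ne_zero
  have hx : A.valuation ((c * ((q : ℕ) : Kfix A) ^ m : Kfix A) : Qbar) = 1 := by
    have : ((c * ((q : ℕ) : Kfix A) ^ m : Kfix A) : Qbar) = (c : Qbar) * (q : Qbar) ^ m := by
      push_cast
      rfl
    rw [this, hm]
  refine ⟨-m, unitOfVal _ hx, ?_⟩
  rw [coe_unitOfVal, zpow_neg, mul_comm c, ← mul_assoc, inv_mul_cancel₀ (zpow_ne_zero _ hq0),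
    one_mul]


theorem valuation_q_pos (hq : q.Prime) : 0 < A.valuation (q : Qbar) :=
  zero_lt_iff.mpr (valuation_q_ne_zero hq)

theorem qW_ne_zero (hq : q.Prime) : qW A q ≠ 0 := by
  intro h
  have h1 : ((qW A q : Wfix A) : Kfix A) = 0 := by rw [h]; rfl
  rw [coe_qW] at h1
  exact hq.ne_zero (by exact_mod_cast h1)

theorem qW_not_isUnit (hA : A.LiesOverPrime q) : ¬ IsUnit (qW A q) := by
  rintro ⟨u, hu⟩
  have h1 := valuation_unit u
  rw [hu, coe_qW, coe_natCast_Kfix] at h1
  exact (valuation_q_lt_one hA).ne h1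

/-- every nonzero element of `Wfix A` is `q ^ n · unit`, `n : ℕ` -/
theorem exists_pow_mul_unit_Wfix (hq : q.Prime) (hA : A.LiesOverPrime q) {w : Wfix A}
    (hw : w ≠ 0) : ∃ (n : ℕ) (u : (Wfix A)ˣ), w = qW A q ^ n * u := by
  have hw' : (w : Kfix A) ≠ 0 := fun h => hw (Subtype.ext h)
  obtain ⟨m, u, hmu⟩ := exists_zpow_mul_unit_Kfix hq hA hw'
  have hval : A.valuation ((w : Kfix A) : Qbar) = A.valuation (q : Qbar) ^ m := by
    have h0 : (((q : Kfix A) ^ m * ((u : Wfix A) : Kfix A) : Kfix A) : Qbar) =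
        (q : Qbar) ^ m * (((u : Wfix A) : Kfix A) : Qbar) := by
      rw [MulMemClass.coe_mul]
      congr 1
    rw [hmu, h0, map_mul, map_zpow₀, valuation_unit, mul_one]
  have hle : A.valuation ((w : Kfix A) : Qbar) ≤ 1 := (A.valuation_le_one_iff _).mpr w.2
  have hm : 0 ≤ m := by
    by_contra hneg
    rw [not_le] at hneg
    obtain ⟨k, hk⟩ := Int.exists_eq_neg_ofNat hneg.le
    have hk0 : k ≠ 0 := by
      rintro rfl
      simp at hk
      omega
    rw [hval, hk, zpow_neg, zpow_natCast] at hle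
    have h1 : A.valuation (q : Qbar) ^ k < 1 :=
      pow_lt_one₀ (valuation_q_pos hq).le (valuation_q_lt_one hA) hk0
    have h2 : 1 < (A.valuation (q : Qbar) ^ k)⁻¹ :=
      (one_lt_inv₀ (pow_pos (valuation_q_pos hq) k)).mpr h1
    exact lt_irrefl _ (h2.trans_le hle)
  obtain ⟨n, rfl⟩ := Int.eq_ofNat_of_zero_le hm
  refine ⟨n, u, Subtype.ext ?_⟩
  rw [hmu, zpow_natCast]
  rfl

theorem irreducible_qW (hq : q.Prime) (hA : A.LiesOverPrime q) : Irreducible (qW A q) := by
  refine ⟨qW_not_isUnit hA, ?_⟩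
  intro a b hab
  have ha0 : a ≠ 0 := by
    rintro rfl
    rw [zero_mul] at hab
    exact qW_ne_zero hq hab
  have hb0 : b ≠ 0 := by
    rintro rfl
    rw [mul_zero] at hab
    exact qW_ne_zero hq hab
  obtain ⟨i, u, hu⟩ := exists_pow_mul_unit_Wfix hq hA ha0
  obtain ⟨j, u', hu'⟩ := exists_pow_mul_unit_Wfix hq hA hb0
  have h1 : qW A q ^ 1 * ((1 : (Wfix A)ˣ) : Wfix A) = qW A q ^ (i + j) * ((u * u' : (Wfix A)ˣ) : Wfix A) := by
    rw [pow_one, Units.val_one, mul_one, pow_add, Units.val_mul]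
    conv_lhs => rw [hab, hu, hu']
    ring
  -- compare valuations
  have hv : ∀ (n : ℕ) (v : (Wfix A)ˣ),
      A.valuation ((((qW A q ^ n * (v : Wfix A) : Wfix A)) : Kfix A) : Qbar) =
        A.valuation (q : Qbar) ^ n := by
    intro n v
    have : ((((qW A q ^ n * (v : Wfix A) : Wfix A)) : Kfix A) : Qbar) =
        (q : Qbar) ^ n * (((v : Wfix A) : Kfix A) : Qbar) := by
      push_cast
      rw [coe_qW, coe_natCast_Kfix]
    rw [this, map_mul, map_pow, valuation_unit, mul_one]
  have h2 := congrArg (fun w : Wfix A => A.valuation ((w : Kfix A) : Qbar)) h1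
  simp only [hv] at h2
  have h3 : 1 = i + j :=
    (pow_right_strictAnti₀ (valuation_q_pos hq) (valuation_q_lt_one hA)).injective h2
  rcases Nat.eq_zero_or_pos i with hi | hi
  · left
    rw [hu, hi, pow_zero, one_mul]
    exact u.isUnit
  · right
    have hj : j = 0 := by omega
    rw [hu', hj, pow_zero, one_mul]
    exact u'.isUnit

/-- **`Wfix A` is a discrete valuation ring** (with uniformizer `q`) -/
theorem isDiscreteValuationRing_Wfix (hq : q.Prime) (hA : A.LiesOverPrime q) :
    IsDiscreteValuationRing (Wfix A) := by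
  apply IsDiscreteValuationRing.ofHasUnitMulPowIrreducibleFactorization
  refine ⟨qW A q, irreducible_qW hq hA, ?_⟩
  intro w hw
  obtain ⟨n, u, hu⟩ := exists_pow_mul_unit_Wfix hq hA hw
  exact ⟨n, u, hu.symm⟩


/-! ### the residue field -/

/-- the inclusion `Wfix A → A` -/
def inclWA (A : ValuationSubring Qbar) : Wfix A →+* A :=
  (algebraMap (Kfix A) Qbar).restrict (Wfix A) A (fun _ hx => hx)

@[simp] theorem coe_inclWA (w : Wfix A) : ((inclWA A w : A) : Qbar) = ((w : Kfix A) : Qbar) := rfl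

instance isLocalHom_inclWA : IsLocalHom (inclWA A) where
  map_nonunit w hw := by
    have h1 : A.valuation ((w : Kfix A) : Qbar) = 1 := by
      have := (A.valuation_eq_one_iff (inclWA A w)).mp hw
      exact this
    exact ⟨unitOfVal (w : Kfix A) h1, rfl⟩

/-- the map of residue fields induced by `Wfix A ⊆ A` -/
def resMap (A : ValuationSubring Qbar) : ResidueField (Wfix A) →+* ResidueField A :=
  ResidueField.map (inclWA A)

theorem resMap_residue (w : Wfix A) : resMap A (residue (Wfix A) w) = residue A (inclWA A w) :=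
  ResidueField.map_residue _ _

theorem resMap_bijective (hq : q.Prime) (hA : A.LiesOverPrime q) :
    Function.Bijective (resMap A) := by
  refine ⟨(resMap A).injective, ?_⟩
  intro cbar
  haveI : Fact q.Prime := ⟨hq⟩
  obtain ⟨c₀, hc₀, hfix⟩ := Fermat.Agent.LSb.Kum.exists_inertia_fixed_lift hA cbar
  have hK : (c₀ : Qbar) ∈ Kfix A := (mem_Kfix A).mpr hfix
  refine ⟨residue (Wfix A) ⟨⟨(c₀ : Qbar), hK⟩, c₀.2⟩, ?_⟩
  rw [resMap_residue, ← hc₀]
  rfl

/-- **the residue field of `Wfix A` is the residue field of `A`** -/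
def resEquiv (hq : q.Prime) (hA : A.LiesOverPrime q) :
    ResidueField (Wfix A) ≃+* ResidueField A :=
  RingEquiv.ofBijective (resMap A) (resMap_bijective hq hA)

@[simp] theorem resEquiv_residue (hq : q.Prime) (hA : A.LiesOverPrime q) (w : Wfix A) :
    resEquiv hq hA (residue (Wfix A) w) = residue A (inclWA A w) :=
  resMap_residue w

/-- the residue field of `A` as an algebra over the residue field of `Wfix A` -/
@[instance_reducible] def resAlgebra (A : ValuationSubring Qbar) : Algebra (ResidueField (Wfix A)) (ResidueField A) :=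
  (resMap A).toAlgebra

end Fermat.Agent.S36lib.Desc
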