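/-
S36lib / Desc / FixF  (helper2)

**Hypothesis (i) of the `K`-rational restriction of the Gauss data at `∞`**: for a valuation subring
`A` of `ℚ̄` over `q` with inertia group `H = I_A`, every nonzero `H`-fixed modular function
`f ∈ fixF N H ⊆ FBar N` is `q ^ m · (unit)` for ANY valuation ring `O` of `FBar N` in which the
integral `t`-expansions with nonzero reduction are units (e.g. the Gauss rings of helper9's
`levelDatum`, `gaussInf₂`, LSb's `gaussOne`).

Proof. `B := ℚ̄[j(t^d) : d ∣ N]`.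
* every `f` is a ratio of elements of `B` (`subfield_eq_top`);
* the denominators of `f` form an `H`-stable nonzero `ℚ̄`-subspace, hence contain a nonzero fixed
  vector (helper1's Speiser `Desc2.exists_fixed_ne_zero`): `f = P₀ / Q₀`, `P₀ Q₀ ∈ B` fixed;
* the elements of `B` have bounded `t`-expansions (`q ^ k g` integral; constants: rank one);
* a fixed bounded series has its coefficients in the fixed field of `H`, whose `q`-adic orders are
  integers (`Desc.exists_zpow_mul_unit`), bounded below: take the minimum.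
-/
import Mathlib
import Fermat.Agent.S36lib.Desc.Kfix
import Fermat.Agent.S36lib.Desc2.SpeiserBar
import Fermat.Agent.S18lib.Asm.RankOne
import Fermat.Agent.LSb.Val.Wq
import Fermat.Agent.S18lib.Weak.Lemmas

set_option autoImplicit false
set_option linter.unusedSectionVars false
set_option linter.unusedVariables false
set_option linter.style.haveILetI false

noncomputable section

namespace Fermat.Agent.S36lib.Desc

open ModularCurve Fermat.Agent.S18lib Fermat.Agent.S18lib.V Fermat.Agent.S13lib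
open Fermat.Agent.LSb.Val Fermat.Agent.S29lib.GH Fermat.Agent.S36lib.Desc2

local notation "Qb" => AlgebraicClosure ℚ

variable {A : ValuationSubring Qb} {q : ℕ}

/-! ### integral and bounded Laurent series -/

/-- a Laurent series over `ℚ̄` with coefficients in `A` is the image of one over `A` -/
theorem exists_toL_eq (z : LaurentSeries Qb) (h : ∀ n, z.coeff n ∈ A) :
    ∃ y : LaurentSeries A, toL A y = z := by
  classical
  let φ : ZeroHom Qb A :=
    { toFun := fun c => if hc : c ∈ A then ⟨c, hc⟩ else 0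
      map_zero' := by
        rw [dif_pos A.zero_mem]
        rfl }
  refine ⟨z.map φ, ?_⟩
  ext n
  rw [toL_coeff, HahnSeries.map_coeff]
  show ((if hc : z.coeff n ∈ A then (⟨z.coeff n, hc⟩ : A) else 0 : A) : Qb) = z.coeff n
  rw [dif_pos (h n)]

/-- `q ^ k` as a Laurent series -/
theorem natCast_pow_mul_coeff {R : Type*} [CommRing R] (k : ℕ) (z : LaurentSeries R) (n : ℤ) :
    (((q : ℕ) : LaurentSeries R) ^ k * z).coeff n = (q : R) ^ k * z.coeff n := by
  have h : (((q : ℕ) : LaurentSeries R) ^ k) = HahnSeries.C ((q : R) ^ k) := by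
    rw [map_pow, map_natCast]
  rw [h, HahnSeries.C_mul_eq_smul, HahnSeries.coeff_smul, smul_eq_mul]

variable (A q) in
/-- bounded `t`-expansions: `q ^ k z` is `A`-integral for some `k` -/
def IsBdd (z : LaurentSeries Qb) : Prop :=
  ∃ (k : ℕ) (y : LaurentSeries A), toL A y = ((q : ℕ) : LaurentSeries Qb) ^ k * z

theorem isBdd_toL (y : LaurentSeries A) : IsBdd A q (toL A y) :=
  ⟨0, y, by rw [pow_zero, one_mul]⟩

theorem IsBdd.mul {z₁ z₂ : LaurentSeries Qb} (h₁ : IsBdd A q z₁) (h₂ : IsBdd A q z₂) :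
    IsBdd A q (z₁ * z₂) := by
  obtain ⟨k₁, y₁, e₁⟩ := h₁
  obtain ⟨k₂, y₂, e₂⟩ := h₂
  refine ⟨k₁ + k₂, y₁ * y₂, ?_⟩
  rw [map_mul, e₁, e₂, pow_add]
  ring

theorem IsBdd.add {z₁ z₂ : LaurentSeries Qb} (h₁ : IsBdd A q z₁) (h₂ : IsBdd A q z₂) :
    IsBdd A q (z₁ + z₂) := by
  obtain ⟨k₁, y₁, e₁⟩ := h₁
  obtain ⟨k₂, y₂, e₂⟩ := h₂
  refine ⟨k₁ + k₂, ((q : ℕ) : LaurentSeries A) ^ k₂ * y₁ + ((q : ℕ) : LaurentSeries A) ^ k₁ * y₂, ?_⟩
  rw [map_add, map_mul, map_mul, map_pow, map_pow, map_natCast, e₁, e₂, pow_add]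
  ring

/-- constants are bounded (rank one) -/
theorem isBdd_C (hq : q.Prime) (hA : A.LiesOverPrime q) (c : Qb) :
    IsBdd A q (HahnSeries.C c) := by
  haveI : Fact q.Prime := ⟨hq⟩
  by_cases hc : c ∈ A
  · obtain ⟨y, hy⟩ := exists_toL_eq (A := A) (HahnSeries.C c) (fun n => by
      rw [HahnSeries.C_apply, HahnSeries.coeff_single]
      split_ifs
      · exact hc
      · exact A.zero_mem)
    exact ⟨0, y, by rw [hy, pow_zero, one_mul]⟩
  · have hci : c⁻¹ ∈ A := (A.mem_or_inv_mem c).resolve_left hc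
    have hc0 : c ≠ 0 := by
      rintro rfl
      exact hc A.zero_mem
    have hqA : ((q : ℕ) : Qb) ∈ A := natCast_mem A q
    have hqmax : (⟨(q : Qb), hqA⟩ : A) ∈ IsLocalRing.maximalIdeal A := by
      rw [IsLocalRing.mem_maximalIdeal, mem_nonunits_iff]
      intro hu
      have h1 : ((q : ℕ) : Qb) ∈ A.nonunits := hA
      rw [ValuationSubring.mem_nonunits_iff_exists_mem_maximalIdeal] at h1
      obtain ⟨hm, hm'⟩ := h1
      exact (IsLocalRing.mem_maximalIdeal _).mp hm' hu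
    have hd0 : (⟨c⁻¹, hci⟩ : A) ≠ 0 := by
      intro h
      exact inv_ne_zero hc0 (congrArg Subtype.val h)
    obtain ⟨n, hn⟩ := rankOne_of_liesOverPrime A hA ⟨(q : Qb), hqA⟩ hqmax ⟨c⁻¹, hci⟩ hd0
    -- `c⁻¹ ∣ q ^ n` in `A`
    have hdvd : (⟨c⁻¹, hci⟩ : A) ∣ (⟨(q : Qb), hqA⟩ : A) ^ n := by
      rcases ValuationRing.dvd_total (⟨c⁻¹, hci⟩ : A) ((⟨(q : Qb), hqA⟩ : A) ^ n) with h | h
      · exact h
      · exact absurd h hn
    obtain ⟨e, he⟩ := hdvd
    have he' : (q : Qb) ^ n = c⁻¹ * (e : Qb) := by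
      have := congrArg Subtype.val he
      simpa using this
    have hmem : (q : Qb) ^ n * c ∈ A := by
      rw [he', mul_comm c⁻¹, mul_assoc, inv_mul_cancel₀ hc0, mul_one]
      exact e.2
    obtain ⟨y, hy⟩ := exists_toL_eq (A := A) (HahnSeries.C ((q : Qb) ^ n * c)) (fun m => by
      rw [HahnSeries.C_apply, HahnSeries.coeff_single]
      split_ifs
      · exact hmem
      · exact A.zero_mem)
    refine ⟨n, y, ?_⟩
    rw [hy, map_mul, map_pow, map_natCast]

/-! ### the minimal `q`-adic order of the coefficients -/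

theorem C_mul_coeff' (c : Qb) (z : LaurentSeries Qb) (n : ℤ) :
    (HahnSeries.C c * z).coeff n = c * z.coeff n := by
  rw [HahnSeries.C_mul_eq_smul, HahnSeries.coeff_smul, smul_eq_mul]

theorem valuation_q_zpow_le_one_iff (hq : q.Prime) (hA : A.LiesOverPrime q) (m : ℤ) :
    A.valuation (q : Qb) ^ m ≤ 1 ↔ 0 ≤ m := by
  have hpos : 0 < A.valuation (q : Qb) := valuation_q_pos hq
  have hlt : A.valuation (q : Qb) < 1 := valuation_q_lt_one hA
  constructor
  · intro h
    by_contra hneg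
    rw [not_le] at hneg
    obtain ⟨k, hk⟩ := Int.exists_eq_neg_ofNat hneg.le
    have hk0 : k ≠ 0 := by
      rintro rfl
      simp at hk
      omega
    rw [hk, zpow_neg, zpow_natCast] at h
    have h1 : A.valuation (q : Qb) ^ k < 1 := pow_lt_one₀ hpos.le hlt hk0
    have h2 : 1 < (A.valuation (q : Qb) ^ k)⁻¹ := (one_lt_inv₀ (pow_pos hpos k)).mpr h1
    exact lt_irrefl _ (h2.trans_le h)
  · intro h
    obtain ⟨n, rfl⟩ := Int.eq_ofNat_of_zero_le h
    rw [zpow_natCast]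
    exact pow_le_one₀ hpos.le hlt.le

/-- **a nonzero bounded series with inertia-fixed coefficients is `q ^ (-m)` times an integral
series with nonzero reduction** -/
theorem exists_zpow_mul_eq_toL (hq : q.Prime) (hA : A.LiesOverPrime q) {z : LaurentSeries Qb}
    (hz0 : z ≠ 0) (hb : IsBdd A q z)
    (hfix : ∀ n, ∀ τ ∈ A.inertiaSubgroupIn ℚ, τ (z.coeff n) = z.coeff n) :
    ∃ (m : ℤ) (y : LaurentSeries A), toL A y = HahnSeries.C ((q : Qb) ^ m) * z ∧ toK A y ≠ 0 := by
  have hq0 : ((q : ℕ) : Qb) ≠ 0 := by exact_mod_cast hq.ne_zero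
  have hvq0 : A.valuation (q : Qb) ≠ 0 := valuation_q_ne_zero hq
  obtain ⟨k, y₀, hy₀⟩ := hb
  have hk : ∀ n, (q : Qb) ^ k * z.coeff n ∈ A := by
    intro n
    have := congrArg (fun w : LaurentSeries Qb => w.coeff n) hy₀
    simp only [natCast_pow_mul_coeff, toL_coeff] at this
    rw [← this]
    exact (y₀.coeff n).2
  let P : ℤ → Prop := fun m => ∃ n, z.coeff n ≠ 0 ∧ A.valuation (z.coeff n * (q : Qb) ^ m) = 1
  -- exponents are bounded above by `k`
  have hbdd : ∃ b : ℤ, ∀ m, P m → m ≤ b := by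
    refine ⟨k, ?_⟩
    rintro m ⟨n, hn0, hn⟩
    have h1 : A.valuation ((q : Qb) ^ k * z.coeff n) ≤ 1 := (A.valuation_le_one_iff _).mpr (hk n)
    have h2 : A.valuation ((q : Qb) ^ k * z.coeff n) = A.valuation (q : Qb) ^ ((k : ℤ) - m) := by
      have h3 : (q : Qb) ^ k * z.coeff n = (z.coeff n * (q : Qb) ^ m) * (q : Qb) ^ ((k : ℤ) - m) := by
        rw [zpow_sub₀ hq0, zpow_natCast]
        field_simp
      rw [h3, map_mul, hn, one_mul, map_zpow₀]
    rw [h2, valuation_q_zpow_le_one_iff hq hA] at h1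
    omega
  have hne : ∃ m, P m := by
    obtain ⟨n, hn⟩ : ∃ n, z.coeff n ≠ 0 := by
      by_contra h
      push Not at h
      exact hz0 (HahnSeries.ext (funext h))
    obtain ⟨m, hm⟩ := exists_zpow_mul_unit A hq hA hn (hfix n)
    exact ⟨m, n, hn, hm⟩
  obtain ⟨m, ⟨n₀, hn₀, hmn₀⟩, hmax⟩ := Int.exists_greatest_of_bdd hbdd hne
  -- all coefficients of `q ^ m z` are in `A`
  have hmem : ∀ n, (HahnSeries.C ((q : Qb) ^ m) * z).coeff n ∈ A := by
    intro n
    rw [C_mul_coeff']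
    by_cases hn : z.coeff n = 0
    · rw [hn, mul_zero]
      exact A.zero_mem
    · obtain ⟨m', hm'⟩ := exists_zpow_mul_unit A hq hA hn (hfix n)
      have hle : m' ≤ m := hmax m' ⟨n, hn, hm'⟩
      rw [← A.valuation_le_one_iff]
      have h3 : (q : Qb) ^ m * z.coeff n = (z.coeff n * (q : Qb) ^ m') * (q : Qb) ^ (m - m') := by
        rw [zpow_sub₀ hq0]
        field_simp
      rw [h3, map_mul, hm', one_mul, map_zpow₀, valuation_q_zpow_le_one_iff hq hA]
      omega
  obtain ⟨y, hy⟩ := exists_toL_eq (A := A) _ hmem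
  refine ⟨m, y, hy, ?_⟩
  intro h0
  have h1 : (toK A y).coeff n₀ = 0 := by rw [h0, HahnSeries.coeff_zero]
  rw [toK_coeff, IsLocalRing.residue_eq_zero_iff, IsLocalRing.mem_maximalIdeal,
    mem_nonunits_iff] at h1
  apply h1
  have h2 : ((y.coeff n₀ : A) : Qb) = (q : Qb) ^ m * z.coeff n₀ := by
    rw [← toL_coeff, hy, C_mul_coeff']
  rw [A.valuation_eq_one_iff (y.coeff n₀), h2, mul_comm]
  exact hmn₀

/-! ### the algebra `B = ℚ̄[j(t^d) : d ∣ N]` -/

section Bsub

local notation "GQ" => (AlgebraicClosure ℚ ≃ₐ[ℚ] AlgebraicClosure ℚ)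

variable (N : ℕ) [NeZero N]

/-- the generators `j(t^d)`, `d ∣ N` -/
def jdSet : Set (FBar N) := {x | ∃ (d : ℕ) (_ : NeZero d) (hd : d ∣ N), x = jd N d hd}

/-- `B = ℚ̄[j(t^d) : d ∣ N]` -/
def Bsub : Subalgebra Qb (FBar N) := Algebra.adjoin Qb (jdSet N)

theorem jd_mem_Bsub (d : ℕ) [NeZero d] (hd : d ∣ N) : jd N d hd ∈ Bsub N :=
  Algebra.subset_adjoin ⟨d, inferInstance, hd, rfl⟩

/-- every element of `FBar N` is a ratio of elements of `B` -/
theorem exists_ratio (f : FBar N) :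
    ∃ P ∈ Bsub N, ∃ Q ∈ Bsub N, Q ≠ 0 ∧ f * Q = P := by
  have htop : Subfield.closure ((Bsub N : Set (FBar N))) = ⊤ := by
    apply subfield_eq_top N
    · intro a
      exact Subfield.subset_closure (Subalgebra.algebraMap_mem _ a)
    · intro d _ hd
      exact Subfield.subset_closure (jd_mem_Bsub N d hd)
  have hf : f ∈ Subfield.closure ((Bsub N : Set (FBar N))) := by
    rw [htop]
    trivial
  rw [Subfield.mem_closure_iff] at hf
  obtain ⟨y, hy, z, hz, hyz⟩ := hf
  have hcl : Subring.closure ((Bsub N : Set (FBar N))) = (Bsub N).toSubring :=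
    Subring.closure_eq (Bsub N).toSubring
  rw [hcl] at hy hz
  by_cases hz0 : z = 0
  · refine ⟨0, zero_mem _, 1, one_mem _, one_ne_zero, ?_⟩
    rw [← hyz, hz0, div_zero, zero_mul]
  · refine ⟨y, hy, z, hz, hz0, ?_⟩
    rw [← hyz, div_mul_cancel₀ _ hz0]

/-- the elements of `B` have bounded expansions -/
theorem isBdd_of_mem_Bsub (hq : q.Prime) (hA : A.LiesOverPrime q) {g : FBar N}
    (hg : g ∈ Bsub N) : IsBdd A q (g : LaurentSeries Qb) := by
  induction hg using Algebra.adjoin_induction with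
  | mem x hx =>
    obtain ⟨d, hd0, hd, rfl⟩ := hx
    have h1 : toL A (jqNModC A d) = coeffEmb Qb (qExpand ℚ d jq) := by
      rw [toL, coeffMap_jqNModC, coeffEmb, ← jqN, ← jqNModC_rat, coeffMap_jqNModC]
    rw [coe_jd, ← h1]
    exact isBdd_toL _
  | algebraMap c =>
    have h1 : ((algebraMap Qb (FBar N) c : FBar N) : LaurentSeries Qb) = HahnSeries.C c := by
      show algebraMap Qb (LaurentSeries Qb) c = HahnSeries.C c
      rw [algebraMap_laurentSeries_eq_single, HahnSeries.C_apply]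
    rw [h1]
    exact isBdd_C hq hA c
  | add x y _ _ hx hy => exact hx.add hy
  | mul x y _ _ hx hy => exact hx.mul hy

/-- `B` is stable under the coefficientwise Galois action -/
theorem smul_mem_Bsub (σ : GQ) {g : FBar N} (hg : g ∈ Bsub N) : galAutBar N σ • g ∈ Bsub N := by
  show arithmeticRingAut (modularFunctionFieldFull N) σ g ∈ Bsub N
  induction hg using Algebra.adjoin_induction with
  | mem x hx =>
    obtain ⟨d, hd0, hd, rfl⟩ := hx
    rw [arithmeticRingAut_jd]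
    exact jd_mem_Bsub N d hd
  | algebraMap c =>
    rw [arithmeticRingAut_algebraMap]
    exact Subalgebra.algebraMap_mem _ _
  | add x y _ _ hx hy =>
    rw [map_add]
    exact add_mem hx hy
  | mul x y _ _ hx hy =>
    rw [map_mul]
    exact mul_mem hx hy

/-- the coefficients of a fixed function are fixed -/
theorem coeff_fixed {g : FBar N} {σ : GQ} (h : galAutBar N σ • g = g) (n : ℤ) :
    σ ((g : LaurentSeries Qb).coeff n) = (g : LaurentSeries Qb).coeff n := by
  have h1 := congrArg (fun x : FBar N => (x : LaurentSeries Qb).coeff n) h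
  simp only [coe_arithmeticGalois_smul, coeffMap_coeff] at h1
  exact h1

/-- the denominators of `f` in `B` -/
def denoms (f : FBar N) : Submodule Qb (FBar N) where
  carrier := {Q | Q ∈ Bsub N ∧ f * Q ∈ Bsub N}
  add_mem' := by
    rintro Q Q' ⟨h1, h2⟩ ⟨h1', h2'⟩
    exact ⟨add_mem h1 h1', by rw [mul_add]; exact add_mem h2 h2'⟩
  zero_mem' := ⟨zero_mem _, by rw [mul_zero]; exact zero_mem _⟩
  smul_mem' := by
    rintro c Q ⟨h1, h2⟩
    exact ⟨Subalgebra.smul_mem _ h1 c, by rw [mul_smul_comm]; exact Subalgebra.smul_mem _ h2 c⟩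

theorem mem_denoms {f Q : FBar N} : Q ∈ denoms N f ↔ Q ∈ Bsub N ∧ f * Q ∈ Bsub N := Iff.rfl

variable (H : Subgroup GQ)

/-- **an `H`-fixed function is a ratio of `H`-fixed elements of `B`** (Speiser) -/
theorem exists_fixed_ratio {f : FBar N} (hf : ∀ σ ∈ H, galAutBar N σ • f = f) :
    ∃ P ∈ Bsub N, ∃ Q ∈ Bsub N, Q ≠ 0 ∧ f * Q = P ∧
      (∀ σ ∈ H, galAutBar N σ • Q = Q) ∧ (∀ σ ∈ H, galAutBar N σ • P = P) := by
  have hstab : ∀ σ ∈ H, ∀ Q ∈ denoms N f, galAutBar N σ • Q ∈ denoms N f := by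
    rintro σ hσ Q ⟨h1, h2⟩
    refine ⟨smul_mem_Bsub N σ h1, ?_⟩
    have h3 : f * (galAutBar N σ • Q) = galAutBar N σ • (f * Q) := by
      conv_lhs => rw [← hf σ hσ]
      show arithmeticRingAut (modularFunctionFieldFull N) σ f *
        arithmeticRingAut (modularFunctionFieldFull N) σ Q =
          arithmeticRingAut (modularFunctionFieldFull N) σ (f * Q)
      rw [map_mul]
    rw [h3]
    exact smul_mem_Bsub N σ h2
  have hne : denoms N f ≠ ⊥ := by
    obtain ⟨P, hP, Q, hQ, hQ0, hfQ⟩ := exists_ratio N f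
    intro hbot
    have : Q ∈ denoms N f := ⟨hQ, by rw [hfQ]; exact hP⟩
    rw [hbot, Submodule.mem_bot] at this
    exact hQ0 this
  obtain ⟨Q, ⟨hQ, hfQ⟩, hQ0, hQfix⟩ := exists_fixed_ne_zero (denoms N f) hstab hne
  refine ⟨f * Q, hfQ, Q, hQ, hQ0, rfl, hQfix, ?_⟩
  intro σ hσ
  show arithmeticRingAut (modularFunctionFieldFull N) σ (f * Q) = f * Q
  rw [map_mul]
  have e1 : arithmeticRingAut (modularFunctionFieldFull N) σ f = f := hf σ hσ
  have e2 : arithmeticRingAut (modularFunctionFieldFull N) σ Q = Q := hQfix σ hσ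
  rw [e1, e2]

/-- `q ^ m` as a constant of `FBar N` -/
def qPow (q : ℕ) (m : ℤ) : FBar N := algebraMap Qb (FBar N) ((q : Qb) ^ m)

theorem qPow_eq (m : ℤ) : qPow N q m = ((q : ℕ) : FBar N) ^ m := by
  rw [qPow, map_zpow₀, map_natCast]

theorem qPow_ne_zero (hq : q.Prime) (m : ℤ) : qPow N q m ≠ 0 := by
  rw [qPow]
  refine (map_ne_zero _).mpr (zpow_ne_zero _ ?_)
  exact_mod_cast hq.ne_zero

theorem qPow_add (hq : q.Prime) (m m' : ℤ) : qPow N q (m + m') = qPow N q m * qPow N q m' := by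
  have hq0 : ((q : ℕ) : Qb) ≠ 0 := by exact_mod_cast hq.ne_zero
  rw [qPow, qPow, qPow, ← map_mul, zpow_add₀ hq0]

theorem coe_qPow_mul (m : ℤ) (g : FBar N) :
    ((qPow N q m * g : FBar N) : LaurentSeries Qb) =
      HahnSeries.C ((q : Qb) ^ m) * (g : LaurentSeries Qb) := by
  have h1 : ((qPow N q m : FBar N) : LaurentSeries Qb) = HahnSeries.C ((q : Qb) ^ m) := by
    show algebraMap Qb (LaurentSeries Qb) ((q : Qb) ^ m) = HahnSeries.C ((q : Qb) ^ m)
    rw [algebraMap_laurentSeries_eq_single, HahnSeries.C_apply]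
  rw [← h1]
  rfl

/-- **integral normal form of a fixed element of `B`**: `q ^ m g` is an integral expansion with
nonzero reduction -/
theorem exists_qPow_mul_eq (hq : q.Prime) (hA : A.LiesOverPrime q)
    (hH : A.inertiaSubgroupIn ℚ ≤ H) {g : FBar N} (hg : g ∈ Bsub N) (hg0 : g ≠ 0)
    (hfix : ∀ σ ∈ H, galAutBar N σ • g = g) :
    ∃ (m : ℤ) (y : LaurentSeries A) (hy : toL A y ∈ modularFunctionFieldBar N),
      toK A y ≠ 0 ∧ (⟨toL A y, hy⟩ : FBar N) = qPow N q m * g := by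
  have hz0 : (g : LaurentSeries Qb) ≠ 0 := fun h => hg0 (Subtype.ext h)
  obtain ⟨m, y, hy, hyK⟩ := exists_zpow_mul_eq_toL hq hA hz0 (isBdd_of_mem_Bsub N hq hA hg)
    (fun n τ hτ => coeff_fixed N (hfix τ (hH hτ)) n)
  have hy' : toL A y = ((qPow N q m * g : FBar N) : LaurentSeries Qb) := by
    rw [hy, coe_qPow_mul]
  refine ⟨m, y, ?_, hyK, Subtype.ext hy'⟩
  rw [hy']
  exact (qPow N q m * g).2

/-- **Hypothesis (i)**: in a valuation ring `O` of `FBar N` in which the integral expansions with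
nonzero reduction are units, every nonzero function fixed by (a group containing) the inertia group
of `A` is `q ^ (-m) · unit`. -/
theorem exists_qPow_mul_mem_of_fixed (O : ValuationSubring (FBar N))
    (hU : ∀ (y : LaurentSeries A) (hy : toL A y ∈ modularFunctionFieldBar N), toK A y ≠ 0 →
      (⟨toL A y, hy⟩ : FBar N) ∈ O ∧ (⟨toL A y, hy⟩ : FBar N)⁻¹ ∈ O)
    (hq : q.Prime) (hA : A.LiesOverPrime q) (hH : A.inertiaSubgroupIn ℚ ≤ H)
    {f : FBar N} (hf : ∀ σ ∈ H, galAutBar N σ • f = f) (hf0 : f ≠ 0) :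
    ∃ m : ℤ, qPow N q m * f ∈ O ∧ (qPow N q m * f)⁻¹ ∈ O := by
  obtain ⟨P, hP, Q, hQ, hQ0, hfQ, hQfix, hPfix⟩ := exists_fixed_ratio N H hf
  have hP0 : P ≠ 0 := by
    rw [← hfQ]
    exact mul_ne_zero hf0 hQ0
  obtain ⟨a, y, hy, hyK, hya⟩ := exists_qPow_mul_eq N H hq hA hH hP hP0 hPfix
  obtain ⟨b, w, hw, hwK, hwb⟩ := exists_qPow_mul_eq N H hq hA hH hQ hQ0 hQfix
  obtain ⟨hy1, hy2⟩ := hU y hy hyK
  obtain ⟨hw1, hw2⟩ := hU w hw hwK
  refine ⟨a - b, ?_⟩
  have hb0 := qPow_ne_zero N hq b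
  have key : qPow N q (a - b) * f = (qPow N q a * P) * (qPow N q b * Q)⁻¹ := by
    rw [sub_eq_add_neg, qPow_add N hq, ← hfQ, mul_inv]
    have : qPow N q (-b) = (qPow N q b)⁻¹ := by
      rw [qPow, qPow, zpow_neg, map_inv₀]
    rw [this]
    field_simp
  rw [key, ← hya, ← hwb]
  refine ⟨O.mul_mem _ _ hy1 hw2, ?_⟩
  rw [mul_inv, inv_inv]
  exact O.mul_mem _ _ hy2 hw1

end Bsub

/-! ### Gauss data -/

section Datum

local notation "GQ" => (AlgebraicClosure ℚ ≃ₐ[ℚ] AlgebraicClosure ℚ)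
local notation "kA" => IsLocalRing.ResidueField A

variable {N : ℕ} [NeZero N] {Fk : Type*} [Field Fk] [Algebra (IsLocalRing.ResidueField A) Fk]
variable (H : Subgroup GQ)

/-- **(i) for a Gauss datum at `∞`**: if the integral expansions lie in `D.O` and those with nonzero
coefficientwise reduction have nonzero reduction, every nonzero fixed function is `q ^ (-m) · u`,
`u ∈ D.Oˣ`. -/
theorem exists_qPow_mul_unit (D : GaussDatum A (FBar N) Fk)
    (hmem : ∀ (y : LaurentSeries A) (hy : toL A y ∈ modularFunctionFieldBar N),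
      (⟨toL A y, hy⟩ : FBar N) ∈ D.O)
    (hred : ∀ (y : LaurentSeries A) (hy : toL A y ∈ modularFunctionFieldBar N), toK A y ≠ 0 →
      D.redF (⟨toL A y, hy⟩ : FBar N) ≠ 0)
    (hq : q.Prime) (hA : A.LiesOverPrime q) (hH : A.inertiaSubgroupIn ℚ ≤ H)
    {f : FBar N} (hf : ∀ σ ∈ H, galAutBar N σ • f = f) (hf0 : f ≠ 0) :
    ∃ (m : ℤ) (u : D.Oˣ), qPow N q m * f = ((u : D.O) : FBar N) := by
  obtain ⟨m, h1, h2⟩ := exists_qPow_mul_mem_of_fixed N H D.O
    (fun y hy hyK => ⟨hmem y hy, D.inv_mem_of_redF_ne_zero (hred y hy hyK)⟩) hq hA hH hf hf0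
  have hne : qPow N q m * f ≠ 0 := mul_ne_zero (qPow_ne_zero N hq m) hf0
  exact ⟨m, ⟨⟨_, h1⟩, ⟨_, h2⟩, Subtype.ext (mul_inv_cancel₀ hne),
    Subtype.ext (inv_mul_cancel₀ hne)⟩, rfl⟩

/-- the same with the constant in the fixed field `fixK H` (hypothesis (i) of the generic
`K`-rational restriction) -/
theorem exists_fixK_mul_unit (D : GaussDatum A (FBar N) Fk)
    (hmem : ∀ (y : LaurentSeries A) (hy : toL A y ∈ modularFunctionFieldBar N),
      (⟨toL A y, hy⟩ : FBar N) ∈ D.O)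
    (hred : ∀ (y : LaurentSeries A) (hy : toL A y ∈ modularFunctionFieldBar N), toK A y ≠ 0 →
      D.redF (⟨toL A y, hy⟩ : FBar N) ≠ 0)
    (hq : q.Prime) (hA : A.LiesOverPrime q) (hH : A.inertiaSubgroupIn ℚ ≤ H)
    {f : FBar N} (hf : f ∈ fixF N H) (hf0 : f ≠ 0) :
    ∃ c : fixK H, c ≠ 0 ∧ ∃ u : D.Oˣ,
      algebraMap Qb (FBar N) (algebraMap (fixK H) Qb c) * f = ((u : D.O) : FBar N) := by
  obtain ⟨m, u, hu⟩ := exists_qPow_mul_unit H D hmem hred hq hA hH (mem_fixF.mp hf) hf0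
  have hq0 : ((q : ℕ) : fixK H) ≠ 0 := by exact_mod_cast hq.ne_zero
  refine ⟨((q : ℕ) : fixK H) ^ m, zpow_ne_zero _ hq0, u, ?_⟩
  rw [← hu, qPow, map_zpow₀, map_natCast]

/-- version for data whose reduction is the coefficientwise one (`IsGaussOne`, `levelDatum`,
`gaussInf₂`) -/
theorem exists_qPow_mul_unit_of_coe {M' : ℕ} (D : GaussDatum A (FBar N) (FRes A M'))
    (hmem : ∀ (y : LaurentSeries A) (hy : toL A y ∈ modularFunctionFieldBar N),
      (⟨toL A y, hy⟩ : FBar N) ∈ D.O)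
    (hred : ∀ (y : LaurentSeries A) (hy : toL A y ∈ modularFunctionFieldBar N),
      ((D.redF (⟨toL A y, hy⟩ : FBar N) : FRes A M') : LaurentSeries kA) = toK A y)
    (hq : q.Prime) (hA : A.LiesOverPrime q) (hH : A.inertiaSubgroupIn ℚ ≤ H)
    {f : FBar N} (hf : ∀ σ ∈ H, galAutBar N σ • f = f) (hf0 : f ≠ 0) :
    ∃ (m : ℤ) (u : D.Oˣ), qPow N q m * f = ((u : D.O) : FBar N) :=
  exists_qPow_mul_unit H D hmem (fun y hy hyK h0 => hyK (by rw [← hred y hy, h0]; rfl)) hq hA hH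
    hf hf0

end Datum

end Fermat.Agent.S36lib.Desc
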